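import Fermat.Agent.S05.Core.MainGood
import Fermat.Agent.S05.Core.MainMult

/-!
# S13 / PFrey: `τ Q - Q ∈ G1` for inertia at a prime of arbitrary residue characteristic
(owner helper21).

Copies of the proofs of `Fermat.Agent.S05.Model.main_good` / `main_mult` with the last step
(`G1_torsion_free`, the only place where `v p = 1` is used) removed.
-/

set_option autoImplicit false

namespace Fermat.Agent.S13.PFrey

open Fermat.Agent.S05

variable {K : Type*} [Field K] {α β : K} {G : Type*} [AddCommGroup G] (M : Model K α β G)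
variable {Γ₀ : Type*} [LinearOrderedCommGroupWithZero Γ₀] (v : Valuation K Γ₀)

/-- Good reduction: inertia moves every point by an element of the kernel of reduction. -/
theorem sub_mem_G1_good (h2 : v 2 = 1) (hα : v α = 1) (hβ : v β = 1) (hαβ : v (α - β) = 1)
    (σ : K ≃+* K) (hσv : ∀ x, v (σ x) = v x) (hσres : ∀ x, v x ≤ 1 → v (σ x - x) < 1)
    (τ : G →+ G) (hτ : ∀ Q, M.coord (τ Q) = (M.coord Q).map (Prod.map σ σ))
    (Q : G) : τ Q - Q ∈ M.G1 v := by
  apply M.inertia_sub_mem_G1 v h2 hα.le hβ.le σ hσv hσres τ hτ Q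
  by_cases hQ0 : Q = 0
  · left; rw [hQ0]; exact M.zero_mem_G1 v
  · obtain ⟨X, Y, hc⟩ := M.exists_coord_of_ne_zero hQ0
    by_cases hX : v X ≤ 1
    · right
      exact ⟨X, Y, hc, hX, fun hY => good_nonsing v hα hβ hαβ (M.equation hc) hX hY⟩
    · left; exact M.mem_G1_of_coord v hc (not_le.mp hX)

/-- Multiplicative reduction (`α = a' ^ p`, `v a' < 1`): inertia moves every `p`-torsion point by
an element of the kernel of reduction.  (No hypothesis on `v p`.) -/
theorem sub_mem_G1_mult (h2 : v 2 = 1) (hα0 : α ≠ 0) (hα : v α < 1) (hβ : v β = 1)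
    {p : ℕ} (hpp : p.Prime) (hp2 : p ≠ 2)
    (a' : K) (ha' : α = a' ^ p) (hsq : ∀ x : K, ∃ y, y ^ 2 = x)
    (σ : K ≃+* K) (hσv : ∀ x, v (σ x) = v x) (hσres : ∀ x, v x ≤ 1 → v (σ x - x) < 1)
    (hσa' : σ a' = a')
    (τ : G →+ G) (hτ : ∀ Q, M.coord (τ Q) = (M.coord Q).map (Prod.map σ σ))
    (Q : G) (hQ : p • Q = 0) : τ Q - Q ∈ M.G1 v := by
  have hε0 : 0 < v α := zero_lt_iff.mpr ((Valuation.ne_zero_iff v).mpr hα0)
  have hfI : ∀ P, v α ≤ M.lvl v P ∧ M.lvl v P ≤ 1 := by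
    intro P
    by_cases hP0 : P = 0
    · rw [hP0, M.lvl_zero v]; exact ⟨hα.le, le_rfl⟩
    · obtain ⟨X, Y, hc⟩ := M.exists_coord_of_ne_zero hP0
      rw [M.lvl_of_coord v hc]
      exact ⟨le_max_left _ _, max_le hα.le (min_le_left _ _)⟩
  have key : ∀ R, M.lvl v R = 1 → τ R - R ∈ M.G1 v := by
    intro R hR
    apply M.inertia_sub_mem_G1 v h2 hα.le hβ.le σ hσv hσres τ hτ R
    by_cases hR0 : R = 0
    · left; rw [hR0]; exact M.zero_mem_G1 v
    · obtain ⟨X, Y, hc⟩ := M.exists_coord_of_ne_zero hR0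
      rw [M.lvl_of_coord v hc] at hR
      have h1X : 1 ≤ v X := by
        rcases max_choice (v α) (min 1 (v X)) with h | h
        · rw [h] at hR; exact absurd hR hα.ne
        · rw [h] at hR; exact min_eq_left_iff.mp hR
      rcases h1X.lt_or_eq with h | h
      · left; exact M.mem_G1_of_coord v hc h
      · right
        exact ⟨X, Y, hc, h.symm.le, fun hY => mult_nonsing v hα hβ (M.equation hc) h.symm hY⟩
  suffices h : ∃ R, M.lvl v R = 1 ∧ τ Q - Q = τ R - R by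
    obtain ⟨R, hR1, hR2⟩ := h
    exact hR2 ▸ key R hR1
  obtain ⟨k, hk⟩ := iter (v α) hε0 hα (M.lvl v) (M.lvl_zero v) hfI (M.ur v h2 hα0 hα hβ) Q p hQ
  have hp0 : p ≠ 0 := hpp.ne_zero
  have hεc : v α = v a' ^ p := by rw [ha', map_pow]
  have ha'0 : a' ≠ 0 := by
    rintro rfl
    rw [zero_pow hp0] at ha'
    exact hα0 ha'
  have hc0 : 0 < v a' := zero_lt_iff.mpr ((Valuation.ne_zero_iff v).mpr ha'0)
  have hc1 : v a' < 1 := by
    by_contra hcon
    have h1 : 1 ≤ v a' := not_lt.mp hcon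
    have h2 : (1 : Γ₀) ≤ v a' ^ p := one_le_pow₀ h1
    rw [← hεc] at h2
    exact absurd hα (not_lt.mpr h2)
  have hlvl : M.lvl v Q = v a' ^ (2 * k) := by
    have h1 : M.lvl v Q ^ p = (v a' ^ (2 * k)) ^ p := by
      rw [hk, hεc, ← zpow_natCast (v a') p, ← zpow_mul, ← zpow_natCast (v a' ^ (2 * k)) p,
        ← zpow_mul, mul_comm]
    exact (pow_left_inj₀ zero_le zero_le hp0).mp h1
  have hk0 : 0 ≤ 2 * k := by
    have h1 : v a' ^ (2 * k) ≤ v a' ^ (0 : ℤ) := by
      rw [zpow_zero, ← hlvl]; exact (hfI Q).2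
    exact (zpow_le_zpow_iff_right_of_lt_one₀ hc0 hc1).mp h1
  have hkp : 2 * k ≤ p := by
    have h1 : v a' ^ (p : ℤ) ≤ v a' ^ (2 * k) := by
      rw [zpow_natCast, ← hεc, ← hlvl]; exact (hfI Q).1
    exact (zpow_le_zpow_iff_right_of_lt_one₀ hc0 hc1).mp h1
  have hkne : 2 * k ≠ p := by
    intro h
    rcases hpp.eq_two_or_odd with h2' | hodd
    · exact hp2 h2'
    · omega
  by_cases hk00 : k = 0
  · exact ⟨Q, by rw [hlvl, hk00]; simp, rfl⟩
  · obtain ⟨n₀, hn₀⟩ : ∃ n₀ : ℕ, (n₀ : ℤ) = 2 * k := ⟨(2 * k).toNat, Int.toNat_of_nonneg hk0⟩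
    have hlvl' : M.lvl v Q = v a' ^ n₀ := by rw [hlvl, ← hn₀, zpow_natCast]
    have hn₀pos : n₀ ≠ 0 := by omega
    have hn₀lt : n₀ < p := by omega
    have hlt1 : v a' ^ n₀ < 1 := pow_lt_one₀ zero_le hc1 hn₀pos
    have hgt : v α < v a' ^ n₀ := by
      rw [hεc]; exact pow_lt_pow_right_of_lt_one₀ hc0 hc1 hn₀lt
    have hs0 : v a' ^ n₀ ≠ 0 := (pow_pos hc0 n₀).ne'
    -- the auxiliary point
    obtain ⟨Y'', hY''⟩ := hsq (a' ^ n₀ * (a' ^ n₀ - α) * (a' ^ n₀ - β))
    obtain ⟨Q'', hcQ''⟩ := M.exists_of_equation (a' ^ n₀) Y'' hY''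
    have hvX'' : v (a' ^ n₀) = v a' ^ n₀ := map_pow v a' n₀
    have hσX'' : σ (a' ^ n₀) = a' ^ n₀ := by rw [map_pow, hσa']
    have hX''0 : a' ^ n₀ ≠ 0 := pow_ne_zero _ ha'0
    have hτQ'' : τ Q'' = Q'' := by
      have h1 : M.coord (τ Q'') = some (a' ^ n₀, σ Y'') := by
        rw [hτ, hcQ'']; simp [hσX'']
      rcases M.eq_or_eq_neg_of_X_eq hcQ'' h1 with h | h
      · exact h
      · exfalso
        have h2' : M.coord (τ Q'') = some (a' ^ n₀, -Y'') := by rw [h]; exact M.coord_neg hcQ''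
        rw [h1] at h2'
        have hσY : σ Y'' = -Y'' := by
          have := Option.some.inj h2'
          exact (Prod.mk.inj this).2
        -- valuations
        have hv1 : v (a' ^ n₀ - α) = v a' ^ n₀ := by
          rw [← hvX'']
          exact Valuation.map_sub_eq_of_lt_left v (by rw [hvX'']; exact hgt)
        have hv2 : v (a' ^ n₀ - β) = 1 := by
          rw [← hβ]
          exact Valuation.map_sub_eq_of_lt_right v (by rw [hvX'', hβ]; exact hlt1)
        have hvY : v Y'' = v a' ^ n₀ := by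
          have h3 : v Y'' ^ 2 = (v a' ^ n₀) ^ 2 := by
            rw [← map_pow, hY'', map_mul, map_mul, hv1, hv2, hvX'', mul_one, sq]
          exact (pow_left_inj₀ zero_le zero_le two_ne_zero).mp h3
        have hvt : v (Y'' / a' ^ n₀) = 1 := by
          rw [map_div₀, hvY, hvX'', div_self hs0]
        have hσt : σ (Y'' / a' ^ n₀) - Y'' / a' ^ n₀ = -(2 * (Y'' / a' ^ n₀)) := by
          rw [map_div₀, hσY, hσX'']; ring
        have h4 := hσres (Y'' / a' ^ n₀) hvt.le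
        rw [hσt, Valuation.map_neg, map_mul, h2, hvt, one_mul] at h4
        exact lt_irrefl _ h4
    have hlvlQ'' : M.lvl v Q'' = v a' ^ n₀ := by
      rw [M.lvl_of_coord v hcQ'', hvX'', min_eq_right hlt1.le, max_eq_right hgt.le]
    have hqt : qt (M.lvl v Q) (M.lvl v Q'') = 1 := by
      rw [hlvl', hlvlQ'']; unfold qt; rw [div_self hs0, min_self]
    rcases M.ur v h2 hα0 hα hβ Q Q'' with ⟨_, h⟩ | ⟨h, _⟩
    · refine ⟨Q - Q'', by rw [h, hqt], ?_⟩
      rw [map_sub, hτQ'']; abel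
    · refine ⟨Q + Q'', by rw [h, hqt], ?_⟩
      rw [map_add, hτQ'']; abel

end Fermat.Agent.S13.PFrey
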