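import Fermat.Agent.S05.Core.G1

/-!
# S13 / PFrey: a subgroup of prime order meets the kernel of reduction trivially or is contained
in it (owner helper21; statements FROZEN).

`M.G1 v` is closed under `+` and `-` (`Fermat.Agent.S05.Model.G1_add`, `G1_neg`, `zero_mem_G1`),
so `N ∩ G1` is a subgroup of `N`, whose order divides the prime `Nat.card N = p`.
-/

set_option autoImplicit false

namespace Fermat.Agent.S13.PFrey

open Fermat.Agent.S05 (Model)

theorem inter_G1_dichotomy {K : Type*} [Field K] {α β : K} {G : Type*} [AddCommGroup G]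
    (M : Model K α β G) {Γ₀ : Type*} [LinearOrderedCommGroupWithZero Γ₀] (v : Valuation K Γ₀)
    (h2 : v 2 = 1) (hα : v α ≤ 1) (hβ : v β ≤ 1) {p : ℕ} (hp : p.Prime)
    (N : AddSubgroup G) (hcard : Nat.card N = p) :
    (∀ Q ∈ N, Q ∈ M.G1 v → Q = 0) ∨ (∀ Q ∈ N, Q ∈ M.G1 v) := by
  classical
  -- the kernel of reduction as a subgroup
  let H : AddSubgroup G :=
    { carrier := M.G1 v
      zero_mem' := M.zero_mem_G1 v
      add_mem' := fun hP hQ => M.G1_add v h2 hα hβ hP hQ
      neg_mem' := fun hP => M.G1_neg v hP }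
  have hmemH : ∀ Q : G, Q ∈ H ↔ Q ∈ M.G1 v := fun _ => Iff.rfl
  have : Finite N := Nat.finite_of_card_ne_zero (by rw [hcard]; exact hp.ne_zero)
  have hle : H ⊓ N ≤ N := inf_le_right
  have hdvd : Nat.card (H ⊓ N : AddSubgroup G) ∣ p := by
    rw [← hcard]
    exact AddSubgroup.card_dvd_of_le hle
  rcases (Nat.dvd_prime hp).mp hdvd with h1 | hpp
  · left
    have hbot : H ⊓ N = ⊥ := AddSubgroup.eq_bot_of_card_eq _ h1
    intro Q hQN hQG
    have hQ : Q ∈ H ⊓ N := AddSubgroup.mem_inf.mpr ⟨(hmemH Q).mpr hQG, hQN⟩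
    rw [hbot] at hQ
    exact AddSubgroup.mem_bot.mp hQ
  · right
    have heq : H ⊓ N = N :=
      AddSubgroup.eq_of_le_of_card_ge hle (by rw [hcard, hpp])
    intro Q hQN
    have hQ : Q ∈ H ⊓ N := by rw [heq]; exact hQN
    exact (hmemH Q).mp (AddSubgroup.mem_inf.mp hQ).1

theorem exists_ne_zero_of_card {G : Type*} [AddCommGroup G] {p : ℕ} (hp : p.Prime)
    (N : AddSubgroup G) (hcard : Nat.card N = p) : ∃ Q ∈ N, Q ≠ 0 := by
  by_contra hcon
  have hall : ∀ Q ∈ N, Q = 0 := by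
    intro Q hQ
    by_contra hne
    exact hcon ⟨Q, hQ, hne⟩
  have hbot : N = ⊥ := (AddSubgroup.eq_bot_iff_forall N).mpr hall
  have h1 : Nat.card N = 1 := by
    rw [hbot]
    exact AddSubgroup.card_bot
  rw [hcard] at h1
  exact hp.one_lt.ne' h1

theorem finite_of_card {G : Type*} [AddCommGroup G] {p : ℕ} (hp : p.Prime)
    (N : AddSubgroup G) (hcard : Nat.card N = p) : Finite N :=
  Nat.finite_of_card_ne_zero (by rw [hcard]; exact hp.ne_zero)

end Fermat.Agent.S13.PFrey
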