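import Fermat.Agent.S13.Defs
import Fermat.Agent.S05.Final

/-!
# S13 / PFrey: the Frey curve as a `Model` adapted to a prime `A` of `ℚ̄` above `p = P.p`
(owner helper21; statement FROZEN).

Same case analysis as `Fermat.Agent.S05.final`, at the prime `q := P.p`:
* `p ∣ a`: `(e₀, α, β) = (0, cA, -cB)`, `α = a ^ p`;
* `p ∣ b`: `(0, -cB, cA)`, `α = (-b) ^ p`;
* `p ∣ c`: `(cA, -(cA + cB), -cA)`, `α = (-c) ^ p`;
* `p ∤ abc`: `(0, cA, -cB)`, good reduction (`v α = 1`).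
In all cases `v 2 = 1` (`p` odd), `v p < 1`, `v α ≤ 1`, `v β = 1`, `v (α - β) = 1`
(`a, b, c` are pairwise coprime because `gcd a b = 1` and `a ^ p + b ^ p = c ^ p`).
-/

set_option autoImplicit false

namespace Fermat.Agent.S13.PFrey

open Fermat.Agent.S05 (freyQb freyCoord freyModel cA cB Model)

theorem frey_model_at (P : FreyPackage) (A : ValuationSubring Qb) (hA : A.LiesOverPrime P.p) :
    ∃ (e₀ α β : Qb) (M : Model Qb α β (freyQb P).Point),
      M.coord = freyCoord P e₀ ∧ (∀ σ : Gal, σ e₀ = e₀) ∧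
      A.valuation (2 : Qb) = 1 ∧ A.valuation ((P.p : ℕ) : Qb) < 1 ∧
      A.valuation α ≤ 1 ∧ A.valuation β = 1 ∧ A.valuation (α - β) = 1 ∧
      (A.valuation α = 1 ∨
        (α ≠ 0 ∧ A.valuation α < 1 ∧ ∃ a' : ℤ, α = ((a' : ℤ) : Qb) ^ P.p)) := by
  have hq : P.p.Prime := P.pp
  have hv2 : A.valuation (2 : Qb) = 1 := by
    have h1 := (Fermat.Agent.S05.val_intCast_eq_one_iff A hq hA 2).mpr (by
      intro h2
      have h3 : P.p ∣ 2 := by exact_mod_cast h2
      have h4 : P.p ≤ 2 := Nat.le_of_dvd (by norm_num) h3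
      have h5 := P.hp5
      omega)
    simpa using h1
  have hvp : A.valuation ((P.p : ℕ) : Qb) < 1 := A.mem_nonunits_iff.mp hA
  have hpodd : Odd P.p := P.hp_odd
  have hp0 : P.p ≠ 0 := P.hp0
  -- valuations of `A = a^p`, `B = b^p`, `C = c^p`
  have hvA_lt : (P.p : ℤ) ∣ P.a → A.valuation (cA P) < 1 := by
    intro h1
    rw [cA, map_pow]
    exact pow_lt_one₀ zero_le ((Fermat.Agent.S05.val_intCast_lt_one_iff A hq hA _).mpr h1) hp0
  have hvA_eq : ¬ (P.p : ℤ) ∣ P.a → A.valuation (cA P) = 1 := by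
    intro h1
    rw [cA, map_pow, (Fermat.Agent.S05.val_intCast_eq_one_iff A hq hA _).mpr h1, one_pow]
  have hvB_lt : (P.p : ℤ) ∣ P.b → A.valuation (cB P) < 1 := by
    intro h1
    rw [cB, map_pow]
    exact pow_lt_one₀ zero_le ((Fermat.Agent.S05.val_intCast_lt_one_iff A hq hA _).mpr h1) hp0
  have hvB_eq : ¬ (P.p : ℤ) ∣ P.b → A.valuation (cB P) = 1 := by
    intro h1
    rw [cB, map_pow, (Fermat.Agent.S05.val_intCast_eq_one_iff A hq hA _).mpr h1, one_pow]
  have hvC_lt : (P.p : ℤ) ∣ P.c → A.valuation (cA P + cB P) < 1 := by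
    intro h1
    rw [Fermat.Agent.S05.cA_add_cB, map_pow]
    exact pow_lt_one₀ zero_le ((Fermat.Agent.S05.val_intCast_lt_one_iff A hq hA _).mpr h1) hp0
  have hvC_eq : ¬ (P.p : ℤ) ∣ P.c → A.valuation (cA P + cB P) = 1 := by
    intro h1
    rw [Fermat.Agent.S05.cA_add_cB, map_pow,
      (Fermat.Agent.S05.val_intCast_eq_one_iff A hq hA _).mpr h1, one_pow]
  have hσint : ∀ (σ : Gal) (n : ℤ), σ ((n : ℤ) : Qb) = n := fun σ n => map_intCast σ n
  by_cases ha : (P.p : ℤ) ∣ P.a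
  · -- multiplicative reduction, `p ∣ a`
    have hb : ¬ (P.p : ℤ) ∣ P.b := Fermat.Agent.S05.not_dvd_of_dvd_of_gcd hq P.hgcdab ha
    have hc : ¬ (P.p : ℤ) ∣ P.c := Fermat.Agent.S05.not_dvd_of_dvd_of_gcd hq P.hgcdac ha
    refine ⟨0, cA P, -cB P, freyModel P 0 (cA P) (-cB P) (by ring) (by ring) (by ring), rfl,
      fun σ => map_zero σ, hv2, hvp, (hvA_lt ha).le, ?_, ?_,
      Or.inr ⟨Fermat.Agent.S05.cA_ne_zero P, hvA_lt ha, P.a, rfl⟩⟩
    · rw [Valuation.map_neg]; exact hvB_eq hb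
    · rw [sub_neg_eq_add]; exact hvC_eq hc
  · by_cases hb : (P.p : ℤ) ∣ P.b
    · -- multiplicative reduction, `p ∣ b`
      have hc : ¬ (P.p : ℤ) ∣ P.c := Fermat.Agent.S05.not_dvd_of_dvd_of_gcd hq P.hgcdbc hb
      have hα' : -cB P = ((((-P.b : ℤ)) : ℤ) : Qb) ^ P.p := by
        rw [cB, Int.cast_neg, hpodd.neg_pow]
      have hvα : A.valuation (-cB P) < 1 := by
        rw [Valuation.map_neg]; exact hvB_lt hb
      refine ⟨0, -cB P, cA P, freyModel P 0 (-cB P) (cA P) (by ring) (by ring) (by ring), rfl,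
        fun σ => map_zero σ, hv2, hvp, hvα.le, hvA_eq ha, ?_,
        Or.inr ⟨neg_ne_zero.mpr (Fermat.Agent.S05.cB_ne_zero P), hvα, -P.b, hα'⟩⟩
      have h1 : -cB P - cA P = -(cA P + cB P) := by ring
      rw [h1, Valuation.map_neg]; exact hvC_eq hc
    · by_cases hc : (P.p : ℤ) ∣ P.c
      · -- multiplicative reduction, `p ∣ c`
        have hσA : ∀ σ : Gal, σ (cA P) = cA P := fun σ => by rw [cA, map_pow, hσint]
        have hα' : -(cA P + cB P) = ((((-P.c : ℤ)) : ℤ) : Qb) ^ P.p := by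
          rw [Fermat.Agent.S05.cA_add_cB, Int.cast_neg, hpodd.neg_pow]
        have hC0 : cA P + cB P ≠ 0 := by
          rw [Fermat.Agent.S05.cA_add_cB]; exact pow_ne_zero _ (Int.cast_ne_zero.mpr P.hc0)
        have hvα : A.valuation (-(cA P + cB P)) < 1 := by
          rw [Valuation.map_neg]; exact hvC_lt hc
        refine ⟨cA P, -(cA P + cB P), -cA P,
          freyModel P (cA P) (-(cA P + cB P)) (-cA P) (by ring) (by ring) (by ring), rfl,
          hσA, hv2, hvp, hvα.le, ?_, ?_,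
          Or.inr ⟨neg_ne_zero.mpr hC0, hvα, -P.c, hα'⟩⟩
        · rw [Valuation.map_neg]; exact hvA_eq ha
        · have h1 : -(cA P + cB P) - -cA P = -cB P := by ring
          rw [h1, Valuation.map_neg]; exact hvB_eq hb
      · -- good reduction
        refine ⟨0, cA P, -cB P, freyModel P 0 (cA P) (-cB P) (by ring) (by ring) (by ring), rfl,
          fun σ => map_zero σ, hv2, hvp, (hvA_eq ha).le, ?_, ?_, Or.inl (hvA_eq ha)⟩
        · rw [Valuation.map_neg]; exact hvB_eq hb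
        · rw [sub_neg_eq_add]; exact hvC_eq hc

end Fermat.Agent.S13.PFrey
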