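import Fermat.Agent.S13.Defs
import Fermat.Agent.S05.Final

/-!
# S13 / PFrey: the abscissas of a finite Galois-stable subgroup (owner helper21; statements FROZEN).

* `exists_finset_X`: the set of `X`-coordinates of the nonzero points of a finite subgroup `N`,
  as a `Finset`.
* `prod_rational`: if `N` is Galois-stable (Frey curve, coordinates `freyCoord P e₀` with `e₀`
  rational), this set is permuted by `Gal(ℚ̄/ℚ)` (`freyCoord_smul`), so the product of its elements
  is fixed by the whole Galois group, hence rational (`ℚ̄/ℚ` is Galois).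
-/

set_option autoImplicit false

namespace Fermat.Agent.S13.PFrey

open Fermat.Agent.S05 (freyQb freyCoord freyModel cA cB Model)

theorem exists_finset_X {K : Type*} [Field K] {α β : K} {G : Type*} [AddCommGroup G]
    (M : Model K α β G) (N : AddSubgroup G) (hfin : Finite N) :
    ∃ S : Finset K, ∀ x : K, x ∈ S ↔ ∃ Q ∈ N, ∃ Y : K, M.coord Q = some (x, Y) := by
  classical
  have hN : (N : Set G).Finite := hfin
  have h : {x : K | ∃ Q ∈ N, ∃ Y : K, M.coord Q = some (x, Y)}.Finite := by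
    refine Set.Finite.subset
      (hN.image (fun Q => ((M.coord Q).map Prod.fst).getD 0)) ?_
    rintro x ⟨Q, hQ, Y, hY⟩
    exact ⟨Q, hQ, by simp [hY]⟩
  exact ⟨h.toFinset, fun x => by simp⟩

/-- `ℚ̄` is an algebraic closure of `ℚ` for the `ℚ`-algebra structure used in `Gal`
(the canonical `DivisionRing.toRatAlgebra`, propositionally equal to
`AlgebraicClosure.instAlgebra ℚ`). -/
theorem prodRat_isAlgClosure : IsAlgClosure ℚ Qb := by
  have h : (DivisionRing.toRatAlgebra : Algebra ℚ (AlgebraicClosure ℚ)) =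
      AlgebraicClosure.instAlgebra ℚ := Subsingleton.elim _ _
  rw [h]
  infer_instance

/-- `ℚ̄ / ℚ` is Galois (for the `ℚ`-algebra structure used in `Gal`). -/
theorem prodRat_isGalois : IsGalois ℚ Qb :=
  have := prodRat_isAlgClosure
  IsAlgClosure.isGalois ℚ Qb

/-- An element of `ℚ̄` fixed by the whole Galois group is rational. -/
theorem prodRat_exists_rat_of_fixed (a : Qb) (h : ∀ σ : Gal, σ a = a) :
    ∃ q : ℚ, ((q : ℚ) : Qb) = a := by
  have : IsGalois ℚ Qb := prodRat_isGalois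
  obtain ⟨q, hq⟩ :=
    (InfiniteGalois.mem_range_algebraMap_iff_fixed (k := ℚ) (K := Qb) a).mpr h
  exact ⟨q, by rw [← hq]; exact (eq_ratCast (algebraMap ℚ Qb) q).symm⟩

theorem prod_rational (P : FreyPackage) (e₀ α β : Qb)
    (M : Model Qb α β (freyQb P).Point) (hM : M.coord = freyCoord P e₀)
    (he₀ : ∀ σ : Gal, σ e₀ = e₀)
    (N : AddSubgroup (freyQb P).Point)
    (hstab : ∀ (σ : Gal) (Q : (freyQb P).Point), Q ∈ N → σ • Q ∈ N)
    (S : Finset Qb) (hS : ∀ x : Qb, x ∈ S ↔ ∃ Q ∈ N, ∃ Y : Qb, M.coord Q = some (x, Y)) :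
    ∃ q : ℚ, ((q : ℚ) : Qb) = ∏ x ∈ S, x := by
  classical
  have hmap : ∀ σ : Gal, ∀ x ∈ S, σ x ∈ S := by
    intro σ x hx
    obtain ⟨Q, hQ, Y, hY⟩ := (hS x).mp hx
    refine (hS (σ x)).mpr ⟨σ • Q, hstab σ Q hQ, σ Y, ?_⟩
    rw [hM] at hY ⊢
    rw [Fermat.Agent.S05.freyCoord_smul P e₀ σ (he₀ σ) Q, hY]
    rfl
  have himage : ∀ σ : Gal, S.image σ = S := by
    intro σ
    apply Finset.eq_of_subset_of_card_le
    · intro y hy
      obtain ⟨x, hx, rfl⟩ := Finset.mem_image.mp hy
      exact hmap σ x hx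
    · rw [Finset.card_image_of_injective _ σ.injective]
  have hfix : ∀ σ : Gal, σ (∏ x ∈ S, x) = ∏ x ∈ S, x := by
    intro σ
    rw [map_prod]
    conv_rhs => rw [← himage σ]
    rw [Finset.prod_image (fun x _ y _ h => σ.injective h)]
  exact prodRat_exists_rat_of_fixed _ hfix

end Fermat.Agent.S13.PFrey
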