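import Fermat.Agent.S13.Defs
import Fermat.Agent.S05.Final
import Fermat.Agent.S13.PFrey.CoreG1

/-!
# S13 / PFrey: inertia at `p` moves `p`-torsion points of the Frey curve by elements of the kernel
of reduction (owner helper21; statement FROZEN).

From `inertia_val` (ValFacts), `freyCoord_smul` (S05/Final) and the abstract
`sub_mem_G1_good` / `sub_mem_G1_mult` (CoreG1), with `τ := DistribSMul.toAddMonoidHom _ σ`.
-/

set_option autoImplicit false

namespace Fermat.Agent.S13.PFrey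

open Fermat.Agent.S05 (freyQb freyCoord freyModel cA cB Model)

theorem frey_sub_mem_G1 (P : FreyPackage) (A : ValuationSubring Qb) (e₀ α β : Qb)
    (M : Model Qb α β (freyQb P).Point) (hM : M.coord = freyCoord P e₀)
    (he₀ : ∀ σ : Gal, σ e₀ = e₀)
    (h2 : A.valuation (2 : Qb) = 1) (hβ : A.valuation β = 1) (hαβ : A.valuation (α - β) = 1)
    (hcase : A.valuation α = 1 ∨
      (α ≠ 0 ∧ A.valuation α < 1 ∧ ∃ a' : ℤ, α = ((a' : ℤ) : Qb) ^ P.p))
    (σ : Gal) (hσ : σ ∈ A.inertiaSubgroupIn ℚ) (Q : (freyQb P).Point) (hQ : P.p • Q = 0) :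
    σ • Q - Q ∈ M.G1 A.valuation := by
  obtain ⟨hσv, hσres⟩ := Fermat.Agent.S05.inertia_val A σ hσ
  let τ : (freyQb P).Point →+ (freyQb P).Point := DistribSMul.toAddMonoidHom _ σ
  have hτ : ∀ R, M.coord (τ R) = (M.coord R).map (Prod.map σ.toRingEquiv σ.toRingEquiv) := by
    intro R
    rw [hM]
    exact Fermat.Agent.S05.freyCoord_smul P e₀ σ (he₀ σ) R
  show τ Q - Q ∈ M.G1 A.valuation
  rcases hcase with hα | ⟨hα0, hαlt, a', ha'⟩
  · exact sub_mem_G1_good M A.valuation h2 hα hβ hαβ σ.toRingEquiv hσv hσres τ hτ Q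
  · have hsq : ∀ x : Qb, ∃ y, y ^ 2 = x := fun x => IsAlgClosed.exists_pow_nat_eq x (by norm_num)
    exact sub_mem_G1_mult M A.valuation h2 hα0 hαlt hβ P.pp (by have := P.hp5; omega)
      ((a' : ℤ) : Qb) ha' hsq σ.toRingEquiv hσv hσres (map_intCast σ a') τ hτ Q hQ

end Fermat.Agent.S13.PFrey
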