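import Fermat.Agent.S13.Defs
import Fermat.Agent.S05.ValFacts

/-!
# S13 / PFrey: a rational number of negative valuation at `A ∣ p` has valuation at least that of
`1 / p` (owner helper21; statement FROZEN).

`q = m / n` in lowest terms, `1 < v q` ⇒ `v n < 1` ⇒ `p ∣ n`, `p ∤ m`, `n = p n'` ⇒
`v p * v q = 1 / v n' ≥ 1`.
-/

set_option autoImplicit false

namespace Fermat.Agent.S13.PFrey

theorem val_rat_bound (A : ValuationSubring Qb) {p : ℕ} (hp : p.Prime) (hA : A.LiesOverPrime p) :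
    ∀ q : ℚ, 1 < A.valuation ((q : ℚ) : Qb) →
      1 ≤ A.valuation ((p : ℕ) : Qb) * A.valuation ((q : ℚ) : Qb) := by
  intro q hq
  -- write `q = m / n` in lowest terms
  have hcast : ((q : ℚ) : Qb) = ((q.num : ℤ) : Qb) / (((q.den : ℕ) : ℤ) : Qb) := by
    rw [Int.cast_natCast]
    exact Rat.cast_def q
  have hden0 : (((q.den : ℕ) : ℤ) : Qb) ≠ 0 := by
    rw [Int.cast_natCast]
    exact Nat.cast_ne_zero.mpr q.den_nz
  rw [hcast, map_div₀] at hq ⊢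
  have hvm1 : A.valuation ((q.num : ℤ) : Qb) ≤ 1 := Fermat.Agent.S05.val_intCast_le_one A q.num
  have hvn1 : A.valuation (((q.den : ℕ) : ℤ) : Qb) ≤ 1 :=
    Fermat.Agent.S05.val_intCast_le_one A (q.den : ℤ)
  -- `v n < 1`
  have hvnlt : A.valuation (((q.den : ℕ) : ℤ) : Qb) < 1 := by
    rcases hvn1.lt_or_eq with h | h
    · exact h
    · exfalso
      rw [h, div_one] at hq
      exact absurd hq (not_lt.mpr hvm1)
  -- hence `p ∣ n`
  have hpn : (p : ℤ) ∣ ((q.den : ℕ) : ℤ) :=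
    (Fermat.Agent.S05.val_intCast_lt_one_iff A hp hA _).mp hvnlt
  have hpn' : p ∣ q.den := Int.natCast_dvd_natCast.mp hpn
  -- hence `p ∤ m`
  have hpm : ¬ (p : ℤ) ∣ q.num := by
    intro h
    have h1 : p ∣ q.num.natAbs := Int.natCast_dvd.mp h
    have h2 : p ∣ Nat.gcd q.num.natAbs q.den := Nat.dvd_gcd h1 hpn'
    rw [Nat.Coprime.gcd_eq_one q.reduced] at h2
    exact hp.one_lt.ne' (Nat.dvd_one.mp h2)
  have hvm_eq : A.valuation ((q.num : ℤ) : Qb) = 1 :=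
    (Fermat.Agent.S05.val_intCast_eq_one_iff A hp hA _).mpr hpm
  -- `n = p * n'`
  obtain ⟨n', hn'⟩ := hpn'
  have hden_eq : (((q.den : ℕ) : ℤ) : Qb) = ((p : ℕ) : Qb) * (((n' : ℕ) : ℤ) : Qb) := by
    rw [hn']
    push_cast
    rfl
  have hp0 : ((p : ℕ) : Qb) ≠ 0 := by
    intro h
    rw [hden_eq, h, zero_mul] at hden0
    exact hden0 rfl
  have hn'0 : (((n' : ℕ) : ℤ) : Qb) ≠ 0 := by
    intro h
    rw [hden_eq, h, mul_zero] at hden0
    exact hden0 rfl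
  have hvp0 : A.valuation ((p : ℕ) : Qb) ≠ 0 := (Valuation.ne_zero_iff _).mpr hp0
  have hvn'0 : A.valuation (((n' : ℕ) : ℤ) : Qb) ≠ 0 := (Valuation.ne_zero_iff _).mpr hn'0
  have hvn'1 : A.valuation (((n' : ℕ) : ℤ) : Qb) ≤ 1 :=
    Fermat.Agent.S05.val_intCast_le_one A (n' : ℤ)
  -- `v p * (1 / (v p * v n')) = (v n')⁻¹ ≥ 1`
  rw [hvm_eq, hden_eq, map_mul, one_div, mul_inv, ← mul_assoc, mul_inv_cancel₀ hvp0, one_mul]
  exact (one_le_inv₀ (zero_lt_iff.mpr hvn'0)).mpr hvn'1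

end Fermat.Agent.S13.PFrey
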