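import Fermat.Agent.S13.Defs
import Fermat.Agent.S13.Iface.PCore
import Fermat.Agent.S05.Final
import Fermat.Agent.S54_Frob
import Fermat.Agent.S13.PFrey.CoreG1
import Fermat.Agent.S13.PFrey.Package
import Fermat.Agent.S13.PFrey.SubG1
import Fermat.Agent.S13.PFrey.ValQ
import Fermat.Agent.S13.PFrey.ProdRat
import Fermat.Agent.S13.PFrey.Dich

/-!
# S13 / PFrey: assembly of the three Frey-level interface theorems (owner helper21)

`exists_torsion'`, `torsion_finite'` (statements of `Iface/Ladder.lean`) and `padic_dichotomy'`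
(statement of `Iface/PAdic.lean`), from `Iface/PCore.lean` and the leaves of this directory.
-/

set_option autoImplicit false

open WeierstrassCurve WeierstrassCurve.Affine WeierstrassCurve.Affine.Point

namespace Fermat.Agent.S13.PFrey

open Fermat.Agent.S05 (freyQb freyCoord freyModel cA cB Model)

theorem torsion_finite' (P : FreyPackage) :
    {Q : (freyQb P).Point | P.p • Q = 0}.Finite ∧
      {Q : (freyQb P).Point | P.p • Q = 0}.ncard ≤ P.p ^ 2 := by
  let M : Model Qb (cA P) (-cB P) (freyQb P).Point :=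
    freyModel P 0 (cA P) (-cB P) (by ring) (by ring) (by ring)
  exact Fermat.Agent.S13.Model.torsion_finite M P.pp P.hp5 two_ne_zero
    (Nat.cast_ne_zero.mpr P.hp0)

theorem exists_torsion' (P : FreyPackage) : ∃ Q : (freyQb P).Point, Q ≠ 0 ∧ P.p • Q = 0 := by
  obtain ⟨A, hA⟩ := Fermat.Agent.S54.exists_valuationSubring_liesOver P.p P.pp
  obtain ⟨e₀, α, β, M, -, -, h2, hvp, hα, hβ, hαβ, -⟩ := frey_model_at P A hA
  exact Fermat.Agent.S13.Model.exists_torsion M A.valuation h2 hα hβ hαβ P.pp P.hp5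
    (Nat.cast_ne_zero.mpr P.hp0) hvp

theorem padic_dichotomy' (P : FreyPackage) (A : ValuationSubring Qb) (hA : A.LiesOverPrime P.p)
    (N : AddSubgroup (freyQb P).Point) (hNp : ∀ Q ∈ N, P.p • Q = 0)
    (hcard : Nat.card N = P.p) (hstab : ∀ (σ : Gal) (Q : (freyQb P).Point), Q ∈ N → σ • Q ∈ N) :
    (∀ σ ∈ A.inertiaSubgroupIn ℚ, ∀ Q : (freyQb P).Point, P.p • Q = 0 → σ • Q - Q ∈ N) ∨
      (∀ σ ∈ A.inertiaSubgroupIn ℚ, ∀ Q ∈ N, σ • Q = Q) := by
  obtain ⟨e₀, α, β, M, hM, he₀, h2, hvp, hα, hβ, hαβ, hcase⟩ := frey_model_at P A hA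
  have hsub : ∀ σ ∈ A.inertiaSubgroupIn ℚ, ∀ Q : (freyQb P).Point, P.p • Q = 0 →
      σ • Q - Q ∈ M.G1 A.valuation :=
    fun σ hσ Q hQ => frey_sub_mem_G1 P A e₀ α β M hM he₀ h2 hβ hαβ hcase σ hσ Q hQ
  rcases inter_G1_dichotomy M A.valuation h2 hα hβ.le P.pp N hcard with h0 | hall
  · right
    intro σ hσ Q hQ
    have h1 : σ • Q - Q ∈ N := N.sub_mem (hstab σ Q hQ) hQ
    exact sub_eq_zero.mp (h0 _ h1 (hsub σ hσ Q (hNp Q hQ)))
  · left
    obtain ⟨S, hS⟩ := exists_finset_X M N (finite_of_card P.pp N hcard)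
    have hrat := prod_rational P e₀ α β M hM he₀ N hstab S hS
    have hvQ := val_rat_bound A P.pp hA
    have hN0 := exists_ne_zero_of_card P.pp N hcard
    have hline := Fermat.Agent.S13.Model.line_eq M A.valuation hα hβ.le P.pp P.hp5 hvQ N hNp hN0
      hall S hS hrat
    intro σ hσ Q hQ
    apply hline
    · have h3 : P.p • (σ • Q) = 0 := by
        have h4 := map_nsmul (DistribSMul.toAddMonoidHom (freyQb P).Point σ) P.p Q
        rw [hQ, _root_.map_zero] at h4
        exact h4.symm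
      rw [nsmul_sub, h3, hQ, sub_zero]
    · exact hsub σ hσ Q hQ

end Fermat.Agent.S13.PFrey
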